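/-
Row 37 (S43), block GLUE (helper143).  THE `m`-PART OF A FINITE ABELIAN GROUP.  Mathlib only.

`A` an abelian group with a family of commuting additive endomorphisms `t i`
(think of `t = T_ℓ - a_ℓ`, `⟨d⟩ - 1`, `U_q - u`, ...).
`loc t = {x | every t i is nilpotent on x}` (the generalised eigenspace, "localisation at `m`").

* `map_mem_loc`, `mem_loc_of_injective` : functoriality;
* `exists_mem_loc_map_eq` : **EXACTNESS**: if `f : A → B` is equivariant, `A` finite and `f x ∈ loc s`
  then `f x = f x'` with `x' ∈ loc t`.  Applied to `f = π_*`, `p ^ a`, `T = δ - 1`, `σ - 1`, ... it transports every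
  statement "`y` is in the image of `f`" from the full Kummer modules to their `m`-parts;
* `eq_zero_of_add_zsmul`, `exists_add_zsmul_eq` : `t i + c` is bijective on `loc t` when `c` is prime to `p`
  and `A` is a `p`-group (non Eisenstein: `T_ℓ - ℓ - 1 = (T_ℓ - a_ℓ) + (a_ℓ - ℓ - 1)`);
* `res`, `mapLoc` : restricted operators.
-/
import Mathlib

set_option autoImplicit false

namespace Fermat.Agent.S43.LocZ

variable {ι : Type*} {A B : Type*} [AddCommGroup A] [AddCommGroup B]

/-- The part of `A` on which every `t i` is nilpotent. -/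
def loc (t : ι → A →+ A) : AddSubgroup A where
  carrier := {x | ∀ i, ∃ N : ℕ, ((t i)^[N]) x = 0}
  zero_mem' := fun i => ⟨0, rfl⟩
  add_mem' := by
    intro x y hx hy i
    obtain ⟨N, hN⟩ := hx i
    obtain ⟨N', hN'⟩ := hy i
    refine ⟨N + N', ?_⟩
    rw [iterate_map_add, Function.iterate_add_apply _ N N' y, hN',
      iterate_map_zero, add_comm N N', Function.iterate_add_apply _ N' N x, hN,
      iterate_map_zero, add_zero]
  neg_mem' := by
    intro x hx i
    obtain ⟨N, hN⟩ := hx i
    exact ⟨N, by rw [iterate_map_neg, hN, neg_zero]⟩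

theorem mem_loc {t : ι → A →+ A} {x : A} : x ∈ loc t ↔ ∀ i, ∃ N : ℕ, ((t i)^[N]) x = 0 := Iff.rfl

theorem iterate_intertwine {t : A →+ A} {s : B →+ B} (f : A →+ B) (h : ∀ x, f (t x) = s (f x))
    (N : ℕ) (x : A) : f ((t^[N]) x) = (s^[N]) (f x) := by
  induction N generalizing x with
  | zero => rfl
  | succ N ih => rw [Function.iterate_succ_apply, ih, h, ← Function.iterate_succ_apply]

theorem map_mem_loc {t : ι → A →+ A} {s : ι → B →+ B} (f : A →+ B)
    (h : ∀ i x, f (t i x) = s i (f x)) {x : A} (hx : x ∈ loc t) : f x ∈ loc s := by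
  intro i
  obtain ⟨N, hN⟩ := hx i
  exact ⟨N, by rw [← iterate_intertwine f (h i), hN, map_zero]⟩

theorem mem_loc_of_injective {t : ι → A →+ A} {s : ι → B →+ B} (f : A →+ B)
    (hf : Function.Injective f) (h : ∀ i x, f (t i x) = s i (f x)) {x : A} (hx : f x ∈ loc s) :
    x ∈ loc t := by
  intro i
  obtain ⟨N, hN⟩ := hx i
  refine ⟨N, hf ?_⟩
  rw [iterate_intertwine f (h i), hN, map_zero]

theorem iterate_eq_zero_of_le {t : A →+ A} {x : A} {N N' : ℕ} (h : (t^[N]) x = 0) (hN : N ≤ N') :
    (t^[N']) x = 0 := by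
  obtain ⟨d, rfl⟩ := Nat.exists_eq_add_of_le hN
  rw [add_comm, Function.iterate_add_apply, h, iterate_map_zero]

/-- The orbit of `x` under `t` is eventually periodic: there are arbitrarily large `m` with
`t ^ (2 m) x = t ^ m x`. -/
theorem exists_iterate_idem [Finite A] (t : A →+ A) (x : A) (N : ℕ) :
    ∃ m, N ≤ m ∧ (t^[m]) ((t^[m]) x) = (t^[m]) x := by
  obtain ⟨i, j, hij, h⟩ : ∃ i j : ℕ, i < j ∧ (t^[i]) x = (t^[j]) x := by
    have := not_injective_infinite_finite (fun n : ℕ => (t^[n]) x)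
    simp only [Function.Injective, not_forall] at this
    obtain ⟨i, j, h, hne⟩ := this
    rcases lt_or_gt_of_ne hne with h' | h'
    · exact ⟨i, j, h', h⟩
    · exact ⟨j, i, h', h.symm⟩
  obtain ⟨r, rfl⟩ := Nat.exists_eq_add_of_lt hij
  -- period `r + 1` from `i` on
  have h1 : ∀ c, i ≤ c → (t^[c + (r + 1)]) x = (t^[c]) x := by
    intro c hc
    obtain ⟨d, rfl⟩ := Nat.exists_eq_add_of_le hc
    have e1 : i + d + (r + 1) = d + (i + r + 1) := by ring
    rw [e1, Function.iterate_add_apply, ← h, ← Function.iterate_add_apply, add_comm]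
  have h2 : ∀ k c, i ≤ c → (t^[c + k * (r + 1)]) x = (t^[c]) x := by
    intro k
    induction k with
    | zero => intro c _; simp
    | succ k ih =>
      intro c hc
      have e1 : c + (k + 1) * (r + 1) = (c + k * (r + 1)) + (r + 1) := by ring
      rw [e1, h1 _ (le_trans hc (Nat.le_add_right _ _)), ih c hc]
  refine ⟨(i + N) * (r + 1), ?_, ?_⟩
  · calc N ≤ i + N := Nat.le_add_left _ _
      _ ≤ (i + N) * (r + 1) := Nat.le_mul_of_pos_right _ (Nat.succ_pos r)
  · rw [← Function.iterate_add_apply]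
    refine h2 (i + N) _ ?_
    calc i ≤ i + N := Nat.le_add_right _ _
      _ ≤ (i + N) * (r + 1) := Nat.le_mul_of_pos_right _ (Nat.succ_pos r)

theorem iterate_comm_apply {t t' : A →+ A} (h : ∀ x, t (t' x) = t' (t x)) (N N' : ℕ) (x : A) :
    (t^[N]) ((t'^[N']) x) = (t'^[N']) ((t^[N]) x) := by
  have h1 : Function.Commute t t' := h
  exact (h1.iterate_iterate N N') x

/-- One step of the projection. -/
theorem exists_step [Finite A] {t : ι → A →+ A} {s : ι → B →+ B}
    (comm : ∀ i j x, t i (t j x) = t j (t i x)) (f : A →+ B) (h : ∀ i x, f (t i x) = s i (f x))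
    (i : ι) (x : A) (hx : ∃ N, ((s i)^[N]) (f x) = 0) :
    ∃ x' : A, f x' = f x ∧ (∃ N, ((t i)^[N]) x' = 0) ∧
      ∀ j, (∃ N, ((t j)^[N]) x = 0) → ∃ N, ((t j)^[N]) x' = 0 := by
  obtain ⟨N, hN⟩ := hx
  obtain ⟨m, hm, hidem⟩ := exists_iterate_idem (t i) x N
  refine ⟨x - ((t i)^[m]) x, ?_, ⟨m, ?_⟩, ?_⟩
  · rw [map_sub, iterate_intertwine f (h i), iterate_eq_zero_of_le hN hm, sub_zero]
  · rw [iterate_map_sub, hidem, sub_self]
  · rintro j ⟨N', hN'⟩
    refine ⟨N', ?_⟩
    rw [iterate_map_sub, iterate_comm_apply (comm j i), hN',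
      iterate_map_zero, sub_zero]

/-- **Exactness of the `m`-part.** -/
theorem exists_mem_loc_map_eq [Finite A] {t : ι → A →+ A} {s : ι → B →+ B}
    (comm : ∀ i j x, t i (t j x) = t j (t i x)) (f : A →+ B) (h : ∀ i x, f (t i x) = s i (f x))
    {x : A} (hx : f x ∈ loc s) : ∃ x' ∈ loc t, f x' = f x := by
  classical
  -- finitely many indices detect `loc t`
  have hdet : ∀ a : A, ∃ i : Option ι, a ∉ loc t → ∃ j, i = some j ∧ ∀ N, ((t j)^[N]) a ≠ 0 := by
    intro a
    by_cases ha : a ∈ loc t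
    · exact ⟨none, fun h => absurd ha h⟩
    · rw [mem_loc] at ha
      push Not at ha
      obtain ⟨j, hj⟩ := ha
      exact ⟨some j, fun _ => ⟨j, rfl, hj⟩⟩
  choose d hd using hdet
  have := Fintype.ofFinite A
  have key : ∀ J : Finset A, ∃ x' : A, f x' = f x ∧
      ∀ a ∈ J, ∀ j, d a = some j → ∃ N, ((t j)^[N]) x' = 0 := by
    intro J
    induction J using Finset.induction_on with
    | empty => exact ⟨x, rfl, by simp⟩
    | insert a J _ ih =>
      obtain ⟨x', hx', hJ⟩ := ih
      rcases hda : d a with _ | j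
      · refine ⟨x', hx', ?_⟩
        intro b hb j hj
        rcases Finset.mem_insert.1 hb with rfl | hb
        · rw [hda] at hj; exact absurd hj (by simp)
        · exact hJ b hb j hj
      · obtain ⟨x'', h1, h2, h3⟩ := exists_step comm f h j x' (by rw [hx']; exact hx j)
        refine ⟨x'', h1.trans hx', ?_⟩
        intro b hb j' hj'
        rcases Finset.mem_insert.1 hb with rfl | hb
        · rw [hda] at hj'
          obtain rfl := Option.some.inj hj'
          exact h2
        · exact h3 j' (hJ b hb j' hj')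
  obtain ⟨x', hx', hall⟩ := key Finset.univ
  refine ⟨x', ?_, hx'⟩
  by_contra hne
  obtain ⟨j, hj, hj'⟩ := hd x' hne
  obtain ⟨N, hN⟩ := hall x' (Finset.mem_univ _) j hj
  exact hj' N hN

/-- Surjections stay surjective on the `m`-parts. -/
theorem exists_mem_loc_of_surjective [Finite A] {t : ι → A →+ A} {s : ι → B →+ B}
    (comm : ∀ i j x, t i (t j x) = t j (t i x)) (f : A →+ B) (h : ∀ i x, f (t i x) = s i (f x))
    (hf : Function.Surjective f) {y : B} (hy : y ∈ loc s) : ∃ x ∈ loc t, f x = y := by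
  obtain ⟨x, rfl⟩ := hf y
  exact exists_mem_loc_map_eq comm f h hy

section Unit

variable {p k : ℕ}

theorem eq_zero_of_coprime_zsmul (hA : ∀ x : A, p ^ k • x = 0) {c : ℤ}
    (hc : IsCoprime c (p : ℤ)) {x : A} (h : c • x = 0) : x = 0 := by
  obtain ⟨u, v, huv⟩ := IsCoprime.pow_right (n := k) hc
  have h1 : x = (u * c + v * (p : ℤ) ^ k) • x := by rw [huv, one_smul]
  rw [h1, add_smul, mul_smul, h, smul_zero, mul_smul]
  have h2 : ((p : ℤ) ^ k) • x = 0 := by
    have := hA x
    rw [← natCast_zsmul] at this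
    push_cast at this
    exact this
  rw [h2, smul_zero, add_zero]

/-- `t i + c` is injective on `loc t` (`c` prime to `p`). -/
theorem eq_zero_of_add_zsmul {t : ι → A →+ A} (hA : ∀ x : A, p ^ k • x = 0) {c : ℤ}
    (hc : IsCoprime c (p : ℤ)) (i : ι) {x : A} (hx : x ∈ loc t) (h : t i x + c • x = 0) :
    x = 0 := by
  obtain ⟨N, hN⟩ := hx i
  have h1 : ∀ n : ℕ, ((t i)^[n]) x = ((-c) ^ n) • x := by
    intro n
    induction n with
    | zero => simp
    | succ n ih =>
      rw [Function.iterate_succ_apply', ih, map_zsmul, eq_neg_of_add_eq_zero_left h, pow_succ,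
        mul_smul, neg_smul]
  rw [h1] at hN
  exact eq_zero_of_coprime_zsmul hA (IsCoprime.pow_left (IsCoprime.neg_left hc)) hN

/-- `t i + c` is surjective on `loc t` (`c` prime to `p`). -/
theorem exists_add_zsmul_eq [Finite A] {t : ι → A →+ A}
    (comm : ∀ i j x, t i (t j x) = t j (t i x)) (hA : ∀ x : A, p ^ k • x = 0) {c : ℤ}
    (hc : IsCoprime c (p : ℤ)) (i : ι) {y : A} (hy : y ∈ loc t) :
    ∃ x ∈ loc t, t i x + c • x = y := by
  let g : loc t → loc t := fun x =>
    ⟨t i x + c • (x : A), (loc t).add_mem (map_mem_loc (t i) (fun j x => comm i j x) x.2)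
      ((loc t).zsmul_mem x.2 c)⟩
  have hg : Function.Injective g := by
    intro x x' hxx'
    have h1 : t i (x : A) + c • (x : A) = t i (x' : A) + c • (x' : A) := congrArg Subtype.val hxx'
    have h2 : t i ((x : A) - x') + c • ((x : A) - x') = 0 := by
      rw [map_sub, smul_sub, sub_add_sub_comm, h1, sub_self]
    exact Subtype.ext (sub_eq_zero.1 (eq_zero_of_add_zsmul hA hc i ((loc t).sub_mem x.2 x'.2) h2))
  obtain ⟨x, hx⟩ := (Finite.injective_iff_surjective.1 hg) ⟨y, hy⟩
  exact ⟨x, x.2, congrArg Subtype.val hx⟩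

end Unit

/-- An operator commuting with the `t i`, restricted to the `m`-part; more generally an equivariant map. -/
def mapLoc {t : ι → A →+ A} {s : ι → B →+ B} (f : A →+ B) (h : ∀ i x, f (t i x) = s i (f x)) :
    loc t →+ loc s where
  toFun x := ⟨f (x : A), map_mem_loc f h x.2⟩
  map_zero' := Subtype.ext (map_zero f)
  map_add' x y := Subtype.ext (map_add f (x : A) (y : A))

@[simp] theorem coe_mapLoc {t : ι → A →+ A} {s : ι → B →+ B} (f : A →+ B)
    (h : ∀ i x, f (t i x) = s i (f x)) (x : loc t) : ((mapLoc f h x : loc s) : B) = f (x : A) := rfl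

theorem mapLoc_surjective [Finite A] {t : ι → A →+ A} {s : ι → B →+ B}
    (comm : ∀ i j x, t i (t j x) = t j (t i x)) (f : A →+ B) (h : ∀ i x, f (t i x) = s i (f x))
    (hf : Function.Surjective f) : Function.Surjective (mapLoc f h) := by
  intro y
  obtain ⟨x, hx, hxy⟩ := exists_mem_loc_of_surjective comm f h hf y.2
  exact ⟨⟨x, hx⟩, Subtype.ext hxy⟩

theorem mapLoc_injective {t : ι → A →+ A} {s : ι → B →+ B} (f : A →+ B)
    (h : ∀ i x, f (t i x) = s i (f x)) (hf : Function.Injective f) :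
    Function.Injective (mapLoc f h) := by
  intro x y hxy
  exact Subtype.ext (hf (congrArg Subtype.val hxy))

end Fermat.Agent.S43.LocZ
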