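/-
Row 37 (S43), block GLUE / FREE (helper143).  THE `p ^ k` VERSION OF THE ABSTRACT LAYER OF `FREE`.  Mathlib only.

`V = W1 F1 n`, `V0 = W1 F0 n` (full Kummer modules, `n = p ^ k`), `D` a generator of the diamond group (order `P h`,
`P = p ^ e`, `p ∤ h`), `up = π^*`, `dn = π_*`, `t i` / `t0 i` the localising families (`T_ℓ - a_ℓ`, `D - 1`, ...).
Inputs (block FREE, `Free/Contract.lean`), with `E = T_ℓ - (ℓ + 1) = t iE + m`, `m = a_ℓ - ℓ - 1` prime to `p`:
 (UPDN) `up dn = ∑_{j < P h} D ^ j`, `dn D = dn`, `D up = up`;   (KERUP) `up y = 0 → E y = 0`;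
 (INV)  `D x = x → E x ∈ im up`;                                  (COKER) `E y ∈ im dn`.
Outputs, on `W = loc t`, `W0 = loc t0`, `δ = D`, `inc = up`, `pr = h⁻¹ dn`: the FREE fields of `T2.Data`:
 `δ_pow`, `pr_surj`, `pr_δ`, `ker_pr`, `inc_inj`, `δ_inc`, `inc_pr`.
-/
import Fermat.Agent.S43.H.LocZ

set_option autoImplicit false

namespace Fermat.Agent.S43.FreeZ

open Finset Fermat.Agent.S43.LocZ

/-- A unipotent automorphism of order prime to `p` is trivial. -/
theorem sub_one_apply_eq_zero {V : Type*} [AddCommGroup V] (g : AddMonoid.End V) (h : ℕ)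
    (hg : g ^ h = 1) (hinj : ∀ z : V, h • z = 0 → z = 0) :
    ∀ (N : ℕ) (x : V), ((g - 1) ^ N) x = 0 → (g - 1) x = 0 := by
  intro N
  induction N with
  | zero =>
    intro x hx
    rw [pow_zero] at hx
    have : x = 0 := hx
    rw [this, map_zero]
  | succ N ih =>
    intro x hx
    rw [pow_succ] at hx
    have h2 : (g - 1) ((g - 1) x) = 0 := ih _ hx
    set y : V := (g - 1) x with hy
    have hgx : g x = x + y := by
      rw [hy]
      show g x = x + (g x - x)
      abel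
    have hgy : g y = y := by
      have : g y - y = 0 := h2
      exact sub_eq_zero.1 this
    have hj : ∀ j : ℕ, (g ^ j) x = x + j • y := by
      intro j
      induction j with
      | zero => simp
      | succ j ihj =>
        rw [pow_succ']
        show g ((g ^ j) x) = _
        rw [ihj, map_add, map_nsmul, hgx, hgy, succ_nsmul]
        abel
    have h3 := hj h
    rw [hg] at h3
    have h4 : h • y = 0 := by
      have : x = x + h • y := h3
      exact (left_eq_add.1 this)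
    exact hinj y h4

/-- The input of the block. -/
structure In (p k e h h' : ℕ) (ι V V0 : Type*) [AddCommGroup V] [AddCommGroup V0] where
  t : ι → V →+ V
  t0 : ι → V0 →+ V0
  comm : ∀ i j x, t i (t j x) = t j (t i x)
  comm0 : ∀ i j x, t0 i (t0 j x) = t0 j (t0 i x)
  hV : ∀ x : V, p ^ k • x = 0
  hV0 : ∀ y : V0, p ^ k • y = 0
  /-- `h' = h⁻¹` modulo `p ^ k` -/
  hh' : ∃ c, h' * h = 1 + c * p ^ k
  D : V →+ V
  D_t : ∀ i x, D (t i x) = t i (D x)
  D_pow : ∀ x, (D^[p ^ e * h]) x = x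
  iD : ι
  t_iD : ∀ x, t iD x = D x - x
  up : V0 →+ V
  dn : V →+ V0
  up_t : ∀ i y, up (t0 i y) = t i (up y)
  dn_t : ∀ i x, dn (t i x) = t0 i (dn x)
  up_dn : ∀ x, up (dn x) = ∑ j ∈ range (p ^ e * h), (D^[j]) x
  dn_D : ∀ x, dn (D x) = dn x
  D_up : ∀ y, D (up y) = up y
  iE : ι
  m : ℤ
  hm : IsCoprime m (p : ℤ)
  kerup : ∀ y, up y = 0 → t0 iE y + m • y = 0
  inv : ∀ x, D x = x → ∃ y, t iE x + m • x = up y
  coker : ∀ y, ∃ x, t0 iE y + m • y = dn x

namespace In

variable {p k e h h' : ℕ} {ι V V0 : Type*} [AddCommGroup V] [AddCommGroup V0]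
  (I : In p k e h h' ι V V0)

include I in
theorem smulV (x : V) : (h' * h) • x = x := by
  obtain ⟨c, hc⟩ := I.hh'
  rw [hc, add_smul, one_smul, mul_smul, I.hV, smul_zero, add_zero]

include I in
theorem smulV0 (y : V0) : (h' * h) • y = y := by
  obtain ⟨c, hc⟩ := I.hh'
  rw [hc, add_smul, one_smul, mul_smul, I.hV0, smul_zero, add_zero]

include I in
theorem h_inj (z : V) (hz : h • z = 0) : z = 0 := by
  rw [← I.smulV z, mul_smul, hz, smul_zero]

include I in
theorem h'_inj0 (z : V0) (hz : h' • z = 0) : z = 0 := by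
  rw [← I.smulV0 z, mul_comm, mul_smul, hz, smul_zero]

/-- `D ^ P = 1` on the `m`-part. -/
theorem D_pow_P {x : V} (hx : x ∈ loc I.t) : (I.D^[p ^ e]) x = x := by
  set Dr : AddMonoid.End V := I.D with hDr
  obtain ⟨N, hN⟩ := hx I.iD
  have e1 : ∀ (n : ℕ) (z : V), ((Dr - 1) ^ n) z = ((I.t I.iD)^[n]) z := by
    intro n
    induction n with
    | zero => intro z; rfl
    | succ n ih =>
      intro z
      rw [pow_succ, Function.iterate_succ_apply, ← ih, I.t_iD]
      rfl
  have hN' : ((Dr - 1) ^ N) x = 0 := by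
    rw [e1]
    exact hN
  set G : AddMonoid.End V := ∑ i ∈ range (p ^ e), Dr ^ i with hG
  have e2 : Dr ^ (p ^ e) - 1 = G * (Dr - 1) := (geom_sum_mul Dr (p ^ e)).symm
  have e3 : Commute G (Dr - 1) := by
    have : Commute G Dr := Commute.sum_left _ _ _ fun i _ => (Commute.refl Dr).pow_left i
    exact this.sub_right (Commute.one_right G)
  have h1 : ((Dr ^ (p ^ e) - 1) ^ N) x = 0 := by
    rw [e2, e3.mul_pow]
    show (G ^ N) (((Dr - 1) ^ N) x) = 0
    rw [hN', map_zero]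
  have hg : (Dr ^ (p ^ e)) ^ h = 1 := by
    rw [← pow_mul]
    ext z
    rw [AddMonoid.End.coe_pow]
    exact I.D_pow z
  have h2 := sub_one_apply_eq_zero (Dr ^ (p ^ e)) h hg I.h_inj N x h1
  have h3 : (Dr ^ (p ^ e)) x - x = 0 := h2
  rw [AddMonoid.End.coe_pow] at h3
  exact sub_eq_zero.1 h3

theorem D_mem {x : V} (hx : x ∈ loc I.t) : I.D x ∈ loc I.t := map_mem_loc I.D I.D_t hx

theorem D_iter_mul {x : V} (hx : x ∈ loc I.t) (c : ℕ) : (I.D^[p ^ e * c]) x = x := by
  induction c with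
  | zero => simp
  | succ c ih =>
    rw [Nat.mul_succ, Function.iterate_add_apply, I.D_pow_P hx, ih]

theorem sum_D {x : V} (hx : x ∈ loc I.t) (c : ℕ) :
    ∑ j ∈ range (p ^ e * c), (I.D^[j]) x = c • ∑ j ∈ range (p ^ e), (I.D^[j]) x := by
  induction c with
  | zero => simp
  | succ c ih =>
    rw [Nat.mul_succ, Finset.sum_range_add, ih, succ_nsmul]
    congr 1
    refine Finset.sum_congr rfl fun j _ => ?_
    rw [add_comm, Function.iterate_add_apply, I.D_iter_mul hx]

/-- the diamond operator on the `m`-part -/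
def δ : AddMonoid.End (loc I.t) := mapLoc I.D I.D_t

/-- `π^*` on the `m`-parts -/
def inc : loc I.t0 →+ loc I.t := mapLoc I.up I.up_t

/-- `π_*` (normalised) on the `m`-parts -/
def pr : loc I.t →+ loc I.t0 := h' • mapLoc I.dn I.dn_t

theorem coe_δ (x : loc I.t) : ((I.δ x : loc I.t) : V) = I.D x := rfl

theorem coe_inc (y : loc I.t0) : ((I.inc y : loc I.t) : V) = I.up y := rfl

theorem coe_pr (x : loc I.t) : ((I.pr x : loc I.t0) : V0) = h' • I.dn x := rfl

theorem coe_δ_pow (j : ℕ) (x : loc I.t) : (((I.δ ^ j) x : loc I.t) : V) = (I.D^[j]) x := by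
  induction j generalizing x with
  | zero => rfl
  | succ j ih =>
    rw [pow_succ]
    show (((I.δ ^ j) (I.δ x) : loc I.t) : V) = _
    rw [ih, Function.iterate_succ_apply]
    rfl

theorem δ_pow : I.δ ^ (p ^ e) = 1 := by
  ext x
  rw [coe_δ_pow, I.D_pow_P x.2]
  rfl

theorem pr_δ (x : loc I.t) : I.pr (I.δ x) = I.pr x := by
  apply Subtype.ext
  rw [coe_pr, coe_pr, coe_δ, I.dn_D]

theorem δ_inc (y : loc I.t0) : I.δ (I.inc y) = I.inc y := by
  apply Subtype.ext
  rw [coe_δ, coe_inc, I.D_up]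

theorem inc_inj : Function.Injective I.inc := by
  rw [injective_iff_map_eq_zero]
  intro y hy
  have h1 : I.up y = 0 := congrArg Subtype.val hy
  exact Subtype.ext (eq_zero_of_add_zsmul I.hV0 I.hm I.iE y.2 (I.kerup _ h1))

theorem inc_pr (x : loc I.t) : I.inc (I.pr x) = ∑ j ∈ range (p ^ e), (I.δ ^ j) x := by
  apply Subtype.ext
  rw [coe_inc, coe_pr, map_nsmul, I.up_dn, I.sum_D x.2, ← mul_smul, I.smulV,
    AddSubgroup.val_finsetSum]
  exact Finset.sum_congr rfl fun j _ => (I.coe_δ_pow j x).symm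

theorem pr_surj [Finite V] [Finite V0] : Function.Surjective I.pr := by
  intro y
  obtain ⟨y', hy', hyy'⟩ := exists_add_zsmul_eq I.comm0 I.hV0 I.hm I.iE y.2
  obtain ⟨x, hx⟩ := I.coker y'
  rw [hyy'] at hx
  obtain ⟨x', hx', hxx'⟩ := exists_mem_loc_map_eq I.comm I.dn I.dn_t (x := x) (by rw [← hx]; exact y.2)
  refine ⟨⟨h • x', (loc I.t).nsmul_mem hx' h⟩, Subtype.ext ?_⟩
  rw [coe_pr]
  show h' • I.dn (h • x') = y
  rw [map_nsmul, ← mul_smul, I.smulV0, hxx', ← hx]

/-- `ker (δ - 1) = inc W0`. -/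
theorem exists_inc_of_fixed [Finite V] [Finite V0] (x : loc I.t) (hx : I.δ x = x) :
    ∃ y, x = I.inc y := by
  obtain ⟨x₁, hx₁, hxx₁⟩ := exists_add_zsmul_eq I.comm I.hV I.hm I.iE x.2
  have hDx : I.D x = x := congrArg Subtype.val hx
  have h1 : I.D x₁ - x₁ = 0 := by
    refine eq_zero_of_add_zsmul I.hV I.hm I.iE ((loc I.t).sub_mem (I.D_mem hx₁) hx₁) ?_
    rw [map_sub, smul_sub, ← I.D_t, sub_add_sub_comm, ← map_zsmul, ← map_add, hxx₁, hDx, sub_self]
  obtain ⟨y, hy⟩ := I.inv x₁ (sub_eq_zero.1 h1)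
  rw [hxx₁] at hy
  obtain ⟨y', hy', hyy'⟩ := exists_mem_loc_map_eq I.comm0 I.up I.up_t (x := y)
    (by rw [← hy]; exact x.2)
  exact ⟨⟨y', hy'⟩, Subtype.ext (by rw [coe_inc]; show (x : V) = I.up y'; rw [hyy', ← hy])⟩

theorem ker_pr [Finite V] [Finite V0] (x : loc I.t) (hx : I.pr x = 0) :
    ∃ y, x = I.δ y - y := by
  set T : loc I.t →+ loc I.t := mapLoc I.D I.D_t - AddMonoidHom.id _ with hT
  set Nm : loc I.t →+ loc I.t := I.inc.comp I.pr with hNm
  have hTa : ∀ z, T z = I.δ z - z := fun z => rfl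
  have h1 : Nat.card T.ker * Nat.card T.range = Nat.card (loc I.t) := by
    rw [← AddSubgroup.index_ker, AddSubgroup.card_mul_index]
  have h2 : Nat.card Nm.ker * Nat.card Nm.range = Nat.card (loc I.t) := by
    rw [← AddSubgroup.index_ker, AddSubgroup.card_mul_index]
  have h3 : T.ker = Nm.range := by
    ext z
    constructor
    · intro hz
      have : I.δ z = z := sub_eq_zero.1 ((hTa z) ▸ hz)
      obtain ⟨y, rfl⟩ := I.exists_inc_of_fixed z this
      obtain ⟨w, rfl⟩ := I.pr_surj y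
      exact ⟨w, rfl⟩
    · rintro ⟨w, rfl⟩
      rw [AddMonoidHom.mem_ker, hTa]
      show I.δ (I.inc (I.pr w)) - I.inc (I.pr w) = 0
      rw [I.δ_inc, sub_self]
  have h4 : T.range ≤ Nm.ker := by
    rintro _ ⟨w, rfl⟩
    rw [AddMonoidHom.mem_ker, hTa]
    show I.inc (I.pr (I.δ w - w)) = 0
    rw [map_sub, I.pr_δ, sub_self, map_zero]
  have h5 : Nat.card Nm.ker = Nat.card T.range := by
    rw [h3] at h1
    have hpos : 0 < Nat.card Nm.range := Nat.card_pos
    have : Nat.card Nm.range * Nat.card Nm.ker = Nat.card Nm.range * Nat.card T.range := by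
      rw [h1, mul_comm, h2]
    exact Nat.eq_of_mul_eq_mul_left hpos this
  have h6 : T.range = Nm.ker := AddSubgroup.eq_of_le_of_card_ge h4 (le_of_eq h5)
  have h7 : x ∈ Nm.ker := by
    rw [AddMonoidHom.mem_ker]
    show I.inc (I.pr x) = 0
    rw [hx, map_zero]
  rw [← h6] at h7
  obtain ⟨y, hy⟩ := h7
  exact ⟨y, by rw [← hy, hTa]⟩

end In

end Fermat.Agent.S43.FreeZ
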