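/-
Row 37 (S43), block GLUE (helper235).  THE HYPOTHESIS `htame` OF `Tame.tame_monoid`, ABSTRACTLY.  No geometry.

`W = W_H(n)_m`, `W₀ = W_0(n)_m`, `n = p ^ k`, `δ` a generator of `Δ` (`δ ^ (p ^ e) = 1`), `pr = π_*` with
`ker pr = (δ - 1) W` (block FREE).  `τ` = the action of an element of the inertia group at `q` on `W`, `τ₀` on `W₀`,
`(τ₀ - 1) ^ 2 = 0` (S34, level `Γ₀(M q)`).  Then `τ` is unipotent on `W`, hence of order prime to `q`.
The relation (R1) at level `H` is NOT used (it is a consequence of the count, which needs `σ`, which needs TAME).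

* `pow_eq_one_of_sq_zero`     : `τ₀ ^ (p ^ k) = 1`;
* `sub_one_pow_eq_zero`       : `(τ - 1) ^ (2 * (p ^ e * k)) = 0`;
* `exists_pow_eq_one_of_nilp` : a unipotent automorphism of a finite `p`-group has order prime to `q`;
* `exists_pow_eq_one`         : `∃ m, ¬ q ∣ m ∧ τ ^ m = 1 ∧ τ₀ ^ m = 1`  (the form consumed by `tame_monoid` for the
                                product of the two actions).
-/
import Fermat.Agent.S43.H.FreeZ
import Fermat.Agent.S43.T2.Poly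

set_option autoImplicit false

namespace Fermat.Agent.S43.TameZ

open Finset

variable {W W₀ : Type*} [AddCommGroup W] [AddCommGroup W₀]

theorem end_nsmul_eq_zero {n : ℕ} (hW : ∀ x : W, n • x = 0) (f : AddMonoid.End W) : n • f = 0 := by
  ext x
  exact hW (f x)

/-- `(τ₀ - 1) ^ 2 = 0` and `n W₀ = 0` give `τ₀ ^ n = 1`. -/
theorem pow_eq_one_of_sq_zero {n : ℕ} (hW₀ : ∀ y : W₀, n • y = 0) (τ₀ : AddMonoid.End W₀)
    (uni : (τ₀ - 1) * (τ₀ - 1) = 0) : τ₀ ^ n = 1 := by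
  have key : ∀ j : ℕ, τ₀ ^ j = 1 + j • (τ₀ - 1) := by
    intro j
    induction j with
    | zero => simp
    | succ j ih =>
      have e : τ₀ = 1 + (τ₀ - 1) := by abel
      rw [pow_succ, ih]
      nth_rewrite 2 [e]
      rw [add_mul, mul_add, mul_add, one_mul, one_mul, mul_one, smul_mul_assoc, uni, nsmul_zero,
        add_zero, succ_nsmul]
      abel
  rw [key n, end_nsmul_eq_zero hW₀, add_zero]

/-- `T = δ - 1` is nilpotent. -/
theorem T_pow_eq_zero {p k e : ℕ} [Fact p.Prime] (hW : ∀ x : W, p ^ k • x = 0)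
    (δ : AddMonoid.End W) (hδ : δ ^ (p ^ e) = 1) : (δ - 1) ^ (p ^ e * k) = 0 := by
  obtain ⟨R, hR⟩ := T2.exists_pow_eq (A := AddMonoid.End W) p e (δ - 1)
    (by rw [add_sub_cancel]; exact hδ)
  rw [pow_mul, hR, smul_pow]
  exact end_nsmul_eq_zero hW _

/-- `τ` is unipotent on `W`. -/
theorem sub_one_pow_eq_zero {p k e : ℕ} [Fact p.Prime] (hW : ∀ x : W, p ^ k • x = 0)
    (δ : AddMonoid.End W) (hδ : δ ^ (p ^ e) = 1) (pr : W →+ W₀)
    (ker_pr : ∀ x, pr x = 0 → ∃ y, x = δ y - y)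
    (τ : AddMonoid.End W) (τ₀ : AddMonoid.End W₀) (hc : Commute τ δ)
    (pr_τ : ∀ x, pr (τ x) = τ₀ (pr x)) (uni : (τ₀ - 1) * (τ₀ - 1) = 0) :
    (τ - 1) ^ (2 * (p ^ e * k)) = 0 := by
  set ν : AddMonoid.End W := τ - 1 with hν
  set T : AddMonoid.End W := δ - 1 with hT
  have hνT : Commute ν T := (hc.sub_left (Commute.one_left δ)).sub_right (Commute.one_right ν)
  have pr_ν : ∀ x, pr (ν x) = (τ₀ - 1) (pr x) := by
    intro x
    show pr (τ x - x) = τ₀ (pr x) - pr x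
    rw [map_sub, pr_τ]
  set μ : AddMonoid.End W := ν ^ 2 with hμ
  have h1 : ∀ x, ∃ y, μ x = T y := by
    intro x
    have : pr (μ x) = 0 := by
      rw [hμ, pow_two]
      show pr (ν (ν x)) = 0
      rw [pr_ν, pr_ν]
      exact congrArg (fun f : AddMonoid.End W₀ => f (pr x)) uni
    exact ker_pr _ this
  have hμT : Commute μ T := hνT.pow_left 2
  have h2 : ∀ j : ℕ, ∀ x, ∃ y, (μ ^ j) x = (T ^ j) y := by
    intro j
    induction j with
    | zero => intro x; exact ⟨x, rfl⟩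
    | succ j ih =>
      intro x
      obtain ⟨y, hy⟩ := h1 x
      obtain ⟨z, hz⟩ := ih y
      refine ⟨z, ?_⟩
      have hcomm : Commute (μ ^ j) T := hμT.pow_left j
      rw [pow_succ μ, pow_succ' T]
      show (μ ^ j) (μ x) = T ((T ^ j) z)
      rw [hy, ← hz]
      exact congrArg (fun f : AddMonoid.End W => f y) hcomm.eq
  ext x
  obtain ⟨y, hy⟩ := h2 (p ^ e * k) x
  rw [pow_mul, hy, T_pow_eq_zero hW δ hδ]
  rfl

/-- A unipotent automorphism of a finite group on which `q` is injective has order prime to `q`. -/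
theorem exists_pow_eq_one_of_nilp [Finite W] {q : ℕ} (hq1 : q ≠ 1)
    (hinj : ∀ z : W, q • z = 0 → z = 0) (τ : AddMonoid.End W) (hu : IsUnit τ) (N : ℕ)
    (hN : (τ - 1) ^ N = 0) : ∃ m : ℕ, ¬ q ∣ m ∧ τ ^ m = 1 := by
  obtain ⟨u, rfl⟩ := hu
  have : Finite (AddMonoid.End W) := Finite.of_injective (fun f : AddMonoid.End W => (f : W → W))
    DFunLike.coe_injective
  have hfin : IsOfFinOrder u := isOfFinOrder_of_finite u
  have hpos : orderOf u ≠ 0 := (orderOf_pos_iff.2 hfin).ne'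
  obtain ⟨a, m, hm, hom⟩ := Nat.exists_eq_pow_mul_and_not_dvd hpos q hq1
  refine ⟨m, hm, ?_⟩
  set τ : AddMonoid.End W := (u : AddMonoid.End W) with hτ
  have hg : (τ ^ m) ^ (q ^ a) = 1 := by
    rw [← pow_mul, mul_comm, ← hom, hτ, ← Units.val_pow_eq_pow_val, pow_orderOf_eq_one,
      Units.val_one]
  have hinj' : ∀ b : ℕ, ∀ z : W, q ^ b • z = 0 → z = 0 := by
    intro b
    induction b with
    | zero => intro z hz; simpa using hz
    | succ b ih =>
      intro z hz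
      rw [pow_succ, mul_smul] at hz
      exact hinj z (ih _ hz)
  set G : AddMonoid.End W := ∑ i ∈ range m, τ ^ i with hG
  have e2 : τ ^ m - 1 = G * (τ - 1) := (geom_sum_mul τ m).symm
  have e3 : Commute G (τ - 1) := by
    have : Commute G τ := Commute.sum_left _ _ _ fun i _ => (Commute.refl τ).pow_left i
    exact this.sub_right (Commute.one_right G)
  have h1 : (τ ^ m - 1) ^ N = 0 := by rw [e2, e3.mul_pow, hN, mul_zero]
  ext x
  have h2 := FreeZ.sub_one_apply_eq_zero (τ ^ m) (q ^ a) hg (hinj' a) N x (by rw [h1]; rfl)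
  have h3 : (τ ^ m) x - x = 0 := h2
  exact sub_eq_zero.1 h3

/-- **The hypothesis `htame`** for the product of the actions on `W` and `W₀`. -/
theorem exists_pow_eq_one [Finite W] {p k e q : ℕ} [Fact p.Prime] (hq : q.Prime) (hqp : q ≠ p)
    (hW : ∀ x : W, p ^ k • x = 0) (hW₀ : ∀ y : W₀, p ^ k • y = 0)
    (δ : AddMonoid.End W) (hδ : δ ^ (p ^ e) = 1) (pr : W →+ W₀)
    (ker_pr : ∀ x, pr x = 0 → ∃ y, x = δ y - y)
    (τ : AddMonoid.End W) (hu : IsUnit τ) (τ₀ : AddMonoid.End W₀) (hc : Commute τ δ)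
    (pr_τ : ∀ x, pr (τ x) = τ₀ (pr x)) (uni : (τ₀ - 1) * (τ₀ - 1) = 0) :
    ∃ m : ℕ, ¬ q ∣ m ∧ τ ^ m = 1 ∧ τ₀ ^ m = 1 := by
  have hp : p.Prime := Fact.out
  have hcop : Nat.Coprime q (p ^ k) := Nat.Coprime.pow_right k ((Nat.coprime_primes hq hp).2 hqp)
  have hinj : ∀ z : W, q • z = 0 → z = 0 := by
    intro z hz
    have h1 : (Nat.gcd q (p ^ k)) • z = 0 := by
      have hz' : (q : ℤ) • z = 0 := by rw [natCast_zsmul]; exact hz
      have hz'' : ((p ^ k : ℕ) : ℤ) • z = 0 := by rw [natCast_zsmul]; exact hW z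
      rw [← natCast_zsmul, Nat.gcd_eq_gcd_ab, add_smul, mul_comm, mul_smul, hz', smul_zero,
        mul_comm, mul_smul, hz'', smul_zero, add_zero]
    rwa [hcop.gcd_eq_one, one_smul] at h1
  obtain ⟨m, hm, hτm⟩ := exists_pow_eq_one_of_nilp hq.ne_one hinj τ hu _
    (sub_one_pow_eq_zero hW δ hδ pr ker_pr τ τ₀ hc pr_τ uni)
  refine ⟨m * p ^ k, ?_, ?_, ?_⟩
  · intro hd
    rcases (Nat.Prime.dvd_mul hq).1 hd with h | h
    · exact hm h
    · exact hqp ((Nat.prime_dvd_prime_iff_eq hq hp).1 (hq.dvd_of_dvd_pow h))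
  · rw [pow_mul, hτm, one_pow]
  · rw [mul_comm, pow_mul, pow_eq_one_of_sq_zero hW₀ τ₀ uni, one_pow]

end Fermat.Agent.S43.TameZ
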