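/-
Row 37 (S43), block GLUE (helper235).  FROM EXPONENT `p` TO EXPONENT `p ^ k` AT LEVEL `Γ₀`.  Mathlib only.

The fields `hE`, `hpure` of `T2.Data p k e W W₀` (`W₀ = W_0(p ^ k)_m`, `N₀ = σ - 1`) follow formally from the exactness
`ker N̄ ⊆ im N̄` at exponent `p` (block E0, `B = W_0(p)_m`), `N₀ ^ 2 = 0` (S34) and the tower (block EXP):
`dn : W₀ → B` onto with kernel `p W₀`, and `W₀` free over `ℤ / p ^ k` in the form (Z1) `p ^ (k - 1) y = 0 → y ∈ p W₀`.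

* `step`   : `N₀ y ∈ p W₀ → y ∈ N₀ W₀ + p W₀`;
* `hpure`  : the field `hpure`;
* `hE`     : the field `hE`.
-/
import Mathlib

set_option autoImplicit false

namespace Fermat.Agent.S43.PureZ

variable {W₀ B : Type*} [AddCommGroup W₀] [AddCommGroup B]

/-- The input. -/
structure In (p k : ℕ) (W₀ B : Type*) [AddCommGroup W₀] [AddCommGroup B] where
  hk : 0 < k
  hW₀ : ∀ y : W₀, p ^ k • y = 0
  pB : ∀ b : B, p • b = 0
  N₀ : W₀ →+ W₀
  Nb : B →+ B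
  dn : W₀ →+ B
  dn_surj : Function.Surjective dn
  ker_dn : ∀ y, dn y = 0 → ∃ z, y = p • z
  dn_N : ∀ y, dn (N₀ y) = Nb (dn y)
  /-- `W₀` is free over `ℤ / p ^ k` -/
  Z1 : ∀ y : W₀, p ^ (k - 1) • y = 0 → ∃ z, y = p • z
  /-- S34 -/
  sq : ∀ y, N₀ (N₀ y) = 0
  /-- (E) at exponent `p` -/
  Eb : ∀ b, Nb b = 0 → ∃ c, b = Nb c

namespace In

variable {p k : ℕ} (I : In p k W₀ B)

theorem step (y v : W₀) (h : I.N₀ y = p • v) : ∃ z z', y = I.N₀ z + p • z' := by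
  have h1 : I.Nb (I.dn y) = 0 := by rw [← I.dn_N, h, map_nsmul, I.pB]
  obtain ⟨c, hc⟩ := I.Eb _ h1
  obtain ⟨z, rfl⟩ := I.dn_surj c
  obtain ⟨z', hz'⟩ := I.ker_dn (y - I.N₀ z) (by rw [map_sub, hc, I.dn_N, sub_self])
  exact ⟨z, z', by rw [← hz']; abel⟩

/-- The field `hpure` of `T2.Data`. -/
theorem hpure (y : W₀) (h : I.N₀ (p ^ (k - 1) • y) = 0) : ∃ z z', y = I.N₀ z + p • z' := by
  rw [map_nsmul] at h
  obtain ⟨v, hv⟩ := I.Z1 _ h
  exact I.step y v hv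

theorem aux (j : ℕ) (hj : j ≤ k) :
    ∀ y : W₀, I.N₀ (p ^ (k - j) • y) = 0 → ∃ z, p ^ (k - j) • y = I.N₀ z := by
  induction j with
  | zero =>
    intro y _
    exact ⟨0, by rw [Nat.sub_zero, I.hW₀, map_zero]⟩
  | succ j ih =>
    intro y hy
    have hk1 : k - (j + 1) ≤ k - 1 := by omega
    have h1 : p ^ (k - 1) • I.N₀ y = 0 := by
      obtain ⟨d, hd⟩ := Nat.exists_eq_add_of_le hk1
      rw [hd, add_comm, pow_add, mul_smul, ← map_nsmul, hy, smul_zero]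
    obtain ⟨v, hv⟩ := I.Z1 _ h1
    obtain ⟨z, z', hz⟩ := I.step y v hv
    have e : k - j = (k - (j + 1)) + 1 := by omega
    have h2 : p ^ (k - (j + 1)) • y = I.N₀ (p ^ (k - (j + 1)) • z) + p ^ (k - j) • z' := by
      rw [e, pow_succ, mul_smul, map_nsmul, ← smul_add, ← hz]
    have h3 : I.N₀ (p ^ (k - j) • z') = 0 := by
      have : p ^ (k - j) • z' = p ^ (k - (j + 1)) • y - I.N₀ (p ^ (k - (j + 1)) • z) := by
        rw [h2]; abel
      rw [this, map_sub, hy, I.sq, sub_zero]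
    obtain ⟨z₂, hz₂⟩ := ih (by omega) z' h3
    exact ⟨p ^ (k - (j + 1)) • z + z₂, by rw [h2, hz₂, map_add]⟩

/-- The field `hE` of `T2.Data`. -/
theorem hE (y : W₀) : I.N₀ y = 0 ↔ ∃ z, y = I.N₀ z := by
  constructor
  · intro hy
    have := I.aux k le_rfl y (by rw [Nat.sub_self, pow_zero, one_smul]; exact hy)
    rwa [Nat.sub_self, pow_zero, one_smul] at this
  · rintro ⟨z, rfl⟩
    exact I.sq z

end In

end Fermat.Agent.S43.PureZ
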